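/-
TEAM FF19 -> S19, block TOP (helper84).  File 1: the ABSTRACT contract between the geometric blocks
(G0, NS, A, N, L: everything over `(K, A)`, NO Galois action) and the Galois blocks (R = `Ord.main`, D, H).

`Γ` (= inertia) acts on `K` (= `ℚ̄`), on the set `Pl` of places and on `J` (= `Pic⁰`).
* `dl P P'` = the class of `P - P'`;  `Dsc P P'` = "`P` and `P'` have the same reduction";
* `val P` = the value at `P` of the coordinate function `t` (junk at the poles);
* `P0 c i` (`c : C` the chart, `i : I₀` the index of the point) = the base points `P_i^0` of the chart `c`.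
* `J1` = the subgroup generated by the `dl P P'`, `Dsc P P'` ("kernel of reduction").
-/
import Mathlib
import Fermat.Agent.FF19.Ord.Core

set_option autoImplicit false

noncomputable section

namespace Fermat.Agent.FF19.Top

section Geo

variable {K Pl J C I₀ : Type} [Field K] [AddCommGroup J] [Fintype I₀]

/-- the kernel of reduction. -/
def J1 (dl : Pl → Pl → J) (Dsc : Pl → Pl → Prop) : AddSubgroup J :=
  AddSubgroup.closure {x | ∃ P P', Dsc P P' ∧ x = dl P P'}

/-- `P` is THE effective divisor `D_z = ∑ P i ∼ z + D0(c)` of Claim A, in the chart `c`. -/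
def Rep (dl : Pl → Pl → J) (Dsc : Pl → Pl → Prop) (P0 : C → I₀ → Pl) (c : C) (z : J)
    (P : I₀ → Pl) : Prop :=
  (∀ i, Dsc (P i) (P0 c i)) ∧ z = ∑ i, dl (P i) (P0 c i)

/-- `τ` is the system of coordinates of `z` (all charts). -/
def IsT (dl : Pl → Pl → J) (Dsc : Pl → Pl → Prop) (val : Pl → K) (P0 : C → I₀ → Pl) (z : J)
    (τ : C × I₀ → K) : Prop :=
  ∀ c, ∃ P, Rep dl Dsc P0 c z P ∧ ∀ i, τ (c, i) = val (P i) - val (P0 c i)

/-- **THE TARGET OF THE GEOMETRIC BLOCKS** (no Galois action). -/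
structure GeoOut (A : Subring K) (dl : Pl → Pl → J) (Dsc : Pl → Pl → Prop) (val : Pl → K)
    (P0 : C → I₀ → Pl) : Prop where
  /-- `[P - P''] = [P - P'] + [P' - P'']` -/
  dl_add : ∀ P P' P'', dl P P'' = dl P P' + dl P' P''
  /-- `Pic⁰` is generated by the `[P - P']` -/
  dl_gen : AddSubgroup.closure {x | ∃ P P', x = dl P P'} = (⊤ : AddSubgroup J)
  /-- "same reduction" is an equivalence relation -/
  dsc_refl : ∀ P, Dsc P P
  dsc_symm : ∀ P P', Dsc P P' → Dsc P' P
  dsc_trans : ∀ P P' P'', Dsc P P' → Dsc P' P'' → Dsc P P''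
  /-- (T1) on the disc of a base point, `t - t(P_i^0)` has values in `A` -/
  val_mem : ∀ c i P, Dsc P (P0 c i) → val P - val (P0 c i) ∈ A
  /-- `t` is injective on the disc of a base point -/
  val_inj : ∀ c i P P', Dsc P (P0 c i) → Dsc P' (P0 c i) → val P = val P' → P = P'
  /-- CLAIM A, existence -/
  exA : ∀ c, ∀ z ∈ J1 dl Dsc, ∃ P, Rep dl Dsc P0 c z P
  /-- CLAIM A, uniqueness -/
  uniqA : ∀ c z P P', Rep dl Dsc P0 c z P → Rep dl Dsc P0 c z P' → P = P'
  /-- LAW over `A` (two chart form: all coordinates of `z + w` are polynomials over `A` in all coordinates of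
  `z` and `w`, on finite sets) -/
  law : ∀ S S' : Set J, S.Finite → S'.Finite → S ⊆ J1 dl Dsc → S' ⊆ J1 dl Dsc → ∀ j : C × I₀,
    ∃ Q : MvPolynomial ((C × I₀) ⊕ (C × I₀)) A, ∀ z ∈ S, ∀ w ∈ S', ∀ τz τw τs,
      IsT dl Dsc val P0 z τz → IsT dl Dsc val P0 w τw → IsT dl Dsc val P0 (z + w) τs →
      τs j = MvPolynomial.aeval (Sum.elim τz τw) Q

/-- the compatibilities with the action of `Γ` (= inertia). -/
structure GalOut (Γ : Type) [Group Γ] [MulSemiringAction Γ K] [MulAction Γ Pl] [DistribMulAction Γ J]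
    (dl : Pl → Pl → J) (Dsc : Pl → Pl → Prop) (val : Pl → K) (P0 : C → I₀ → Pl) : Prop where
  dl_smul : ∀ (σ : Γ) P P', σ • dl P P' = dl (σ • P) (σ • P')
  /-- (T2 of RED) inertia does not move the reduction -/
  dsc_smul : ∀ (σ : Γ) P, Dsc (σ • P) P
  /-- `t` is fixed by `Γ` -/
  val_smul : ∀ (σ : Γ) c i P, Dsc P (P0 c i) → val (σ • P) = σ • val P
  /-- the base points are fixed -/
  P0_fix : ∀ (σ : Γ) c i, σ • P0 c i = P0 c i
  /-- (LIFT) every residue disc contains a fixed place -/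
  lift : ∀ P, ∃ Q, (∀ σ : Γ, σ • Q = Q) ∧ Dsc P Q

open Classical in
/-- the coordinates (junk `0` outside `J1`). -/
def tco (dl : Pl → Pl → J) (Dsc : Pl → Pl → Prop) (val : Pl → K) (P0 : C → I₀ → Pl)
    (j : C × I₀) (z : J) : K :=
  if h : ∃ P, Rep dl Dsc P0 j.1 z P then val (h.choose j.2) - val (P0 j.1 j.2) else 0

end Geo

/-- (DL) THE DESCENT LEMMA: an equivariant function which is a polynomial over `A` in equivariant functions is a
polynomial over `O = A ∩ K^Γ` in them.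
[Let `m_1..m_s` be the monomials of `P`, `f_a := (x ↦ m_a(e x))` restricted to `T`, `M` the `O`-span of the `f_a`.
Choose a generating family `h_1..h_r` of `M` of minimal cardinality.  (i) the `h_i` are independent over
`K₀ = K^Γ`: in a non trivial relation divide by the coefficient `c_j` such that all `c_i / c_j ∈ A` (`A` is a valuation
ring; the quotients are fixed by `Γ`, so they are in `O`): `h_j` is in the span of the others, contradiction.  (ii) Artin: the
`h_i` are equivariant, so they are independent over `K` (relation of minimal support, normalised; apply `σ`;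
`x ↦ σ • x` is onto `T`).  (iii) `φ = ∑ b_i h_i`, `b_i ∈ A`; equivariance and (ii): `σ • b_i = b_i`, `b_i ∈ O`.  So
`φ ∈ M`.] -/
def Stmt_DL : Prop :=
  ∀ (Γ K X κ : Type) [Group Γ] [Field K] [MulSemiringAction Γ K] [MulAction Γ X]
    (A O : Subring K), (∀ a : K, a ∈ A ∨ a⁻¹ ∈ A) → (∀ a : K, a ∈ O ↔ a ∈ A ∧ ∀ σ : Γ, σ • a = a) →
    ∀ (T : Set X), (∀ (σ : Γ), ∀ x ∈ T, σ • x ∈ T) →
    ∀ (e : κ → X → K), (∀ j (σ : Γ), ∀ x ∈ T, e j (σ • x) = σ • e j x) →
    ∀ (φ : X → K), (∀ (σ : Γ), ∀ x ∈ T, φ (σ • x) = σ • φ x) →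
    (∃ P : MvPolynomial κ A, ∀ x ∈ T, φ x = MvPolynomial.aeval (fun j => e j x) P) →
    ∃ P : MvPolynomial κ O, ∀ x ∈ T, φ x = MvPolynomial.aeval (fun j => e j x) P

/-- (COORD) the geometric output + the Galois compatibilities give the hypotheses of `Ord.main`. -/
def Stmt_Coord : Prop :=
  ∀ (Γ K Pl J C I₀ : Type) [Group Γ] [Field K] [MulSemiringAction Γ K] [MulAction Γ Pl]
    [AddCommGroup J] [DistribMulAction Γ J] [Fintype I₀] [Nonempty C]
    (A O : Subring K), (∀ a : K, a ∈ A ∨ a⁻¹ ∈ A) → (∀ a : K, a ∈ O ↔ a ∈ A ∧ ∀ σ : Γ, σ • a = a) →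
    ∀ (dl : Pl → Pl → J) (Dsc : Pl → Pl → Prop) (val : Pl → K) (P0 : C → I₀ → Pl),
    GeoOut A dl Dsc val P0 → GalOut Γ dl Dsc val P0 →
    Ord.IsCoord Γ A O (J1 dl Dsc) (tco dl Dsc val P0) ∧
      ∀ x : J, ∃ y : J, (∀ σ : Γ, σ • y = y) ∧ x - y ∈ J1 dl Dsc

end Fermat.Agent.FF19.Top

end
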