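/-
TEAM FF19 -> S19, block TOP (helper84).  File 2: the CONCRETE contracts at level `M` and the statement of the
top assembly.
-/
import Fermat.Agent.FF19.Top.Defs
import Fermat.Agent.FF19.Hopf.Interface
import Fermat.Agent.RED.Defs

set_option autoImplicit false

noncomputable section

namespace Fermat.Agent.FF19.Top

open Fermat.Agent.RED AlgebraicCurve ModularCurve

/-- inertia at `A`. -/
abbrev Ine (A : ValuationSubring Qb) : Subgroup GQ := A.inertiaSubgroupIn ℚ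

/-- `O = A ∩ ℚ̄^I`. -/
def OI (A : ValuationSubring Qb) : Subring Qb where
  carrier := {a | a ∈ A ∧ ∀ σ : Ine A, σ • a = a}
  mul_mem' := fun {a b} ha hb => ⟨A.mul_mem _ _ ha.1 hb.1, fun σ => by rw [smul_mul', ha.2, hb.2]⟩
  one_mem' := ⟨A.one_mem, fun σ => smul_one σ⟩
  add_mem' := fun {a b} ha hb => ⟨A.add_mem _ _ ha.1 hb.1, fun σ => by rw [smul_add, ha.2, hb.2]⟩
  zero_mem' := ⟨A.zero_mem, fun σ => smul_zero σ⟩
  neg_mem' := fun {a} ha => ⟨A.neg_mem _ ha.1, fun σ => by rw [smul_neg, ha.2]⟩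

theorem mem_OI (A : ValuationSubring Qb) (a : Qb) :
    a ∈ OI A ↔ a ∈ A.toSubring ∧ ∀ σ : Ine A, σ • a = a := Iff.rfl

/-- the action of inertia on the places of `X₀(M)`. -/
@[reducible] def plAct (M : ℕ) (A : ValuationSubring Qb) : MulAction (Ine A) (Pl M) :=
  MulAction.compHom (Pl M) ((arithmeticGalois (modularFunctionFieldFull M)).comp (Ine A).subtype)

open Classical in
/-- the class of `P - P'` in `J₀(M)`. -/
def dlM (M : ℕ) (P P' : Pl M) : JZero M :=
  if h : (Finsupp.single P (1 : ℤ) - Finsupp.single P' (1 : ℤ) : Divisor Qb (FF M)) ∈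
      Divisor.degZero (K := Qb) (F := FF M) then Pic0.mk ⟨_, h⟩ else 0

/-- **(GEO) THE TARGET OF ALL GEOMETRIC BLOCKS AT LEVEL `M`** (`l ∤ M`, `M` a level where the model package
exists: `4 ∣ M` or `9 ∣ M`).  `C = Bool`: the two charts. -/
def Stmt_Geo (M l : ℕ) : Prop :=
  ∀ A : ValuationSubring Qb, A.LiesOverPrime l →
    ∃ (g : ℕ) (Dsc : Pl M → Pl M → Prop) (val : Pl M → Qb) (P0 : Bool → Fin g → Pl M),
      GeoOut A.toSubring (dlM M) Dsc val P0 ∧
      @GalOut Qb (Pl M) (JZero M) Bool (Fin g) _ _ (Ine A) _ _ (plAct M A) _ (dlM M) Dsc val P0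

/-- the `l^k`-torsion of `J₀(M)`. -/
abbrev Tor (M l k : ℕ) : Type := ↥(Submodule.torsionBy ℤ (JZero M) ((l : ℤ) ^ k))

/-- the Galois action on the torsion. -/
def actT (M l k : ℕ) (σ : GQ) (x : Tor M l k) : Tor M l k :=
  ⟨σ • (x : JZero M), by
    have h := x.2
    rw [Submodule.mem_torsionBy_iff] at h ⊢
    have e : ((l : ℤ) ^ k) • (σ • (x : JZero M)) = σ • (((l : ℤ) ^ k) • (x : JZero M)) :=
      ((DistribSMul.toAddMonoidHom (JZero M) σ).map_zsmul _ _).symm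
    rw [e, h, smul_zero]⟩

/-- the action of inertia on the torsion. -/
@[reducible] def torAct (M l k : ℕ) (A : ValuationSubring Qb) : MulAction (Ine A) (Tor M l k) where
  smul σ x := actT M l k σ x
  one_smul x := Subtype.ext (one_smul GQ (x : JZero M))
  mul_smul σ τ x := Subtype.ext (mul_smul (σ : GQ) (τ : GQ) (x : JZero M))

/-- (FIN) [S27.result + instances of S24.] -/
def Stmt_Fin : Prop := ∀ (M l k : ℕ) [NeZero M], l.Prime → Finite (Tor M l k)

/-- (OPEN) the Galois action on the torsion has open kernel.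
[`x = [D]`, `l^k D = div u`; `u ∈ FF M` is fixed by `gal M σ` for all `σ` fixing a number field `L`
(`u` is a quotient of `ℚ̄`-linear combinations of series with rational coefficients); then `l^k (σ D - D) = 0`, so
`σ D = D`.  `Tor` is finite: take the compositum.] -/
def Stmt_Open : Prop :=
  ∀ (M l k : ℕ) [NeZero M], l.Prime → ∃ L : IntermediateField ℚ Qb, FiniteDimensional ℚ L ∧
    ∀ σ ∈ L.fixingSubgroup, ∀ x : Tor M l k, actT M l k σ x = x

/-- **(DESC) THE CONTRACT OF BLOCK D**, in the form used by TOP. -/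
def Stmt_DescT : Prop :=
  ∀ (l : ℕ), l.Prime → ∀ (A : ValuationSubring Qb), A.LiesOverPrime l →
    ∀ (G : Type) [AddCommGroup G] [Finite G] (act : GQ → G → G),
    (∀ x, act 1 x = x) → (∀ σ τ x, act (σ * τ) x = act σ (act τ x)) →
    (∀ σ x y, act σ (x + y) = act σ x + act σ y) →
    (∃ L : IntermediateField ℚ Qb, FiniteDimensional ℚ L ∧ ∀ σ ∈ L.fixingSubgroup, ∀ x, act σ x = x) →
    ∀ [MulAction (Ine A) G], (∀ (σ : Ine A) (x : G), σ • x = act σ x) →
    (∃ R : Subalgebra (OI A) (G → Qb), Ord.IsLocOrd (Ine A) (OI A) G R) →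
    ∃ H : Subalgebra (Hopf.Rl l) (G → Qb), Hopf.IsOrder l G act H

/-- **(Q) THE CONTRACT OF BLOCK Q**: an equivariant injection of the torsion of level `N` in that of level `N r²`. -/
def Stmt_Q : Prop :=
  ∀ (N r l k : ℕ) [NeZero N], r.Prime → l.Prime → l ≠ r →
    ∃ j : Tor N l k →+ Tor (N * r ^ 2) l k, Function.Injective j ∧
      ∀ σ x, j (actT N l k σ x) = actT (N * r ^ 2) l k σ (j x)

/-- the statement of S19. -/
def Stmt_S19 : Prop :=
  ∀ (p : ℕ) [NeZero p] (ℓ : ℕ) [Fact ℓ.Prime] (_ : ¬ ℓ ∣ p) (k : ℕ),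
    ∃ (H : Type) (_ : CommRing H) (_ : HopfAlgebra (GaloisRep.ratLocalizedAt ℓ) H),
      Module.Finite (GaloisRep.ratLocalizedAt ℓ) H ∧ Module.Flat (GaloisRep.ratLocalizedAt ℓ) H ∧
      Coalgebra.IsCocomm (GaloisRep.ratLocalizedAt ℓ) H ∧
      ∃ e : WithConv (H →ₐ[GaloisRep.ratLocalizedAt ℓ] AlgebraicClosure ℚ) ≃
          ↥(Submodule.torsionBy ℤ (JZero p) ((ℓ : ℤ) ^ k)),
        (∀ f g, e (f * g) = e f + e g) ∧
        ∀ (σ : AlgebraicClosure ℚ ≃ₐ[ℚ] AlgebraicClosure ℚ)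
          (f g : WithConv (H →ₐ[GaloisRep.ratLocalizedAt ℓ] AlgebraicClosure ℚ)),
          (∀ h : H, g h = σ (f h)) → ((e g : JZero p)) = σ • (e f : JZero p)

/-- existence of a place over `l`. -/
def Stmt_ExA : Prop := ∀ l : ℕ, l.Prime → ∃ A : ValuationSubring Qb, A.LiesOverPrime l

/-- **(TOP)**. -/
def Stmt_Top : Prop :=
  Hopf.Stmt_Criterion → Hopf.Stmt_Sub → Stmt_DescT → Stmt_DL → Stmt_Coord → Stmt_Fin → Stmt_Open →
  Stmt_Q → Stmt_ExA →
  (∀ M l : ℕ, l.Prime → ¬ l ∣ M → (4 ∣ M ∨ 9 ∣ M) → Stmt_Geo M l) → Stmt_S19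

end Fermat.Agent.FF19.Top

end
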