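/-
TEAM FF19 -> S19, block TOP (helper84).  File 3: THE FINAL CONTRACT `Stmt_Pkg M l` (in the language of the blocks A and
Law/Geo: `D : INJ.RedData`, `sp`, `Law.GeoData`) and the statement of the final assembly `Stmt_Final`.

Chain:  `Stmt_Pkg M l`  ⟹ (`Law.Stmt_GeoCoord`, `Law.Stmt_CoEx`, `A.Stmt_Gal`)  `Law.Coord` + equivariance + lifting
        ⟹ (`Ord.mainO`) a local order  ⟹ (`Stmt_DescT`) an order over `ℤ_(l)`  ⟹ (`Stmt_Q2`, `Hopf.Stmt_Sub`,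
        `Hopf.Stmt_Criterion`)  S19.
-/
import Fermat.Agent.FF19.Top.Interface
import Fermat.Agent.FF19.Law.GeoInterface
import Fermat.Agent.FF19.Ord.AdaptLaw

set_option autoImplicit false

noncomputable section

namespace Fermat.Agent.FF19.Top

open Fermat.Agent.RED AlgebraicCurve ModularCurve

/-- **THE FINAL CONTRACT OF ALL GEOMETRIC + GALOIS BLOCKS AT LEVEL `M`.** -/
def Stmt_Pkg (M l : ℕ) : Prop :=
  ∀ A : ValuationSubring Qb, A.LiesOverPrime l →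
  ∃ (k κ : Type) (_ : Field k) (_ : Field κ) (_ : Algebra k κ) (D : INJ.RedData Qb (FF M) k κ)
    (sp : Pl M → Place k κ) (g s : ℕ) (t : FF M) (Einf : Divisor Qb (FF M))
    (w w' : Fin g → Fin (s + 1) → Place k κ) (cb cb' : Fin g → k) (P0 Q0 : Fin g → Pl M),
    D.A = A ∧ Law.GeoData D sp g s t Einf w w' cb cb' P0 Q0 ∧
    -- inertia does not move the reduction
    (∀ σ ∈ Ine A, ∀ P : Pl M, sp (gal M σ • P) = sp P) ∧
    -- the coordinate is rational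
    (∀ σ ∈ Ine A, gal M σ • t = t) ∧
    -- the base points are fixed by inertia
    (∀ σ ∈ Ine A, ∀ i, gal M σ • P0 i = P0 i ∧ gal M σ • Q0 i = Q0 i) ∧
    -- (LIFT) every class is congruent modulo `J¹` to a class fixed by inertia
    (∀ x : JZero M, ∃ y : JZero M, (∀ σ ∈ Ine A, σ • y = y) ∧ x - y ∈ Law.J1 sp)

/-- **(Q2) THE CONTRACT OF BLOCK Q**, weakest form: `r ∤ N`, level `N r`. -/
def Stmt_Q2 : Prop :=
  ∀ (N r l k : ℕ) [NeZero N], r.Prime → ¬ r ∣ N → l.Prime → l ≠ r →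
    ∃ j : Tor N l k →+ Tor (N * r) l k, Function.Injective j ∧
      ∀ σ x, j (actT N l k σ x) = actT (N * r) l k σ (j x)

/-- **(FINAL)**. -/
def Stmt_Final : Prop :=
  Hopf.Stmt_Criterion → Hopf.Stmt_Sub → Stmt_DescT → Stmt_Fin → Stmt_Open → Stmt_ExA → Stmt_Q2 →
  Law.Stmt_GeoCoord → Law.Stmt_CoEx → Law.Stmt_ArchQ → A.Stmt_Gal →
  (∀ M l : ℕ, M ≠ 0 → l.Prime → ¬ l ∣ M → (2 ∣ M ∨ 3 ∣ M) → Stmt_Pkg M l) → Stmt_S19

end Fermat.Agent.FF19.Top

end
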