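/-
TEAM FF19 -> S19, block TOP (helper84).  TOP-COORD : `GeoOut + GalOut ⟹ Ord.IsCoord + LIFT`.
-/
import Fermat.Agent.FF19.Top.Defs

set_option autoImplicit false

noncomputable section

namespace Fermat.Agent.FF19.Top

section Coord

variable {K Pl J C I₀ : Type} [Field K] [AddCommGroup J] [Fintype I₀]
  {A : Subring K} {dl : Pl → Pl → J} {Dsc : Pl → Pl → Prop} {val : Pl → K} {P0 : C → I₀ → Pl}

theorem Coord_tco_eq (G : GeoOut A dl Dsc val P0) (c : C) (i : I₀) (z : J) (P : I₀ → Pl)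
    (hP : Rep dl Dsc P0 c z P) : tco dl Dsc val P0 (c, i) z = val (P i) - val (P0 c i) := by
  have h : ∃ P, Rep dl Dsc P0 (c, i).1 z P := ⟨P, hP⟩
  unfold tco
  rw [dif_pos h]
  have h2 : h.choose = P := G.uniqA c z _ _ h.choose_spec hP
  rw [h2]

theorem Coord_isT (G : GeoOut A dl Dsc val P0) (z : J) (hz : z ∈ J1 dl Dsc) :
    IsT dl Dsc val P0 z (fun j => tco dl Dsc val P0 j z) := by
  intro c
  obtain ⟨P, hP⟩ := G.exA c z hz
  exact ⟨P, hP, fun i => Coord_tco_eq G c i z P hP⟩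

variable {Γ : Type} [Group Γ] [MulSemiringAction Γ K] [MulAction Γ Pl] [DistribMulAction Γ J]

theorem Coord_stab (G : GeoOut A dl Dsc val P0) (H : GalOut Γ dl Dsc val P0) (σ : Γ) (z : J)
    (hz : z ∈ J1 dl Dsc) : σ • z ∈ J1 dl Dsc := by
  unfold J1 at hz ⊢
  induction hz using AddSubgroup.closure_induction with
  | mem x hx =>
    obtain ⟨P, P', hD, rfl⟩ := hx
    refine AddSubgroup.subset_closure ⟨σ • P, σ • P', ?_, H.dl_smul σ P P'⟩
    exact G.dsc_trans _ _ _ (H.dsc_smul σ P)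
      (G.dsc_trans _ _ _ hD (G.dsc_symm _ _ (H.dsc_smul σ P')))
  | zero => rw [smul_zero]; exact AddSubgroup.zero_mem _
  | add x y _ _ hx hy => rw [smul_add]; exact AddSubgroup.add_mem _ hx hy
  | neg x _ hx => rw [smul_neg]; exact AddSubgroup.neg_mem _ hx

theorem Coord_rep_smul (G : GeoOut A dl Dsc val P0) (H : GalOut Γ dl Dsc val P0) (σ : Γ) (c : C)
    (z : J) (P : I₀ → Pl) (hP : Rep dl Dsc P0 c z P) :
    Rep dl Dsc P0 c (σ • z) (fun i => σ • P i) := by
  refine ⟨fun i => G.dsc_trans _ _ _ (H.dsc_smul σ (P i)) (hP.1 i), ?_⟩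
  rw [hP.2, Finset.smul_sum]
  refine Finset.sum_congr rfl fun i _ => ?_
  rw [H.dl_smul, H.P0_fix]

theorem Coord_T2 (G : GeoOut A dl Dsc val P0) (H : GalOut Γ dl Dsc val P0) (j : C × I₀) (σ : Γ)
    (z : J) (hz : z ∈ J1 dl Dsc) :
    tco dl Dsc val P0 j (σ • z) = σ • tco dl Dsc val P0 j z := by
  obtain ⟨c, i⟩ := j
  obtain ⟨P, hP⟩ := G.exA c z hz
  rw [Coord_tco_eq G c i z P hP, Coord_tco_eq G c i (σ • z) _ (Coord_rep_smul G H σ c z P hP),
    smul_sub, H.val_smul σ c i (P i) (hP.1 i)]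
  have h := H.val_smul σ c i (P0 c i) (G.dsc_refl _)
  rw [H.P0_fix] at h
  rw [← h]

theorem Coord_lift (G : GeoOut A dl Dsc val P0) (H : GalOut Γ dl Dsc val P0) (x : J) :
    ∃ y : J, (∀ σ : Γ, σ • y = y) ∧ x - y ∈ J1 dl Dsc := by
  have hx : x ∈ AddSubgroup.closure {x | ∃ P P', x = dl P P'} := by
    rw [G.dl_gen]
    exact AddSubgroup.mem_top x
  induction hx using AddSubgroup.closure_induction with
  | mem x hx =>
    obtain ⟨P, P', rfl⟩ := hx
    obtain ⟨Q, hQ, hPQ⟩ := H.lift P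
    obtain ⟨Q', hQ', hPQ'⟩ := H.lift P'
    refine ⟨dl Q Q', fun σ => by rw [H.dl_smul, hQ, hQ'], ?_⟩
    have e1 : dl P Q' = dl P P' + dl P' Q' := G.dl_add _ _ _
    have e2 : dl P Q' = dl P Q + dl Q Q' := G.dl_add _ _ _
    have e3 : dl P P' - dl Q Q' = dl P Q - dl P' Q' := by
      have e4 : dl P P' + dl P' Q' = dl P Q + dl Q Q' := e1.symm.trans e2
      rw [sub_eq_sub_iff_add_eq_add, e4, add_comm]
    rw [e3]
    exact AddSubgroup.sub_mem _ (AddSubgroup.subset_closure ⟨P, Q, hPQ, rfl⟩)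
      (AddSubgroup.subset_closure ⟨P', Q', hPQ', rfl⟩)
  | zero => exact ⟨0, fun σ => smul_zero σ, by rw [sub_zero]; exact AddSubgroup.zero_mem _⟩
  | add x y _ _ hx hy =>
    obtain ⟨a, ha, ha'⟩ := hx
    obtain ⟨b, hb, hb'⟩ := hy
    refine ⟨a + b, fun σ => by rw [smul_add, ha, hb], ?_⟩
    have : x + y - (a + b) = (x - a) + (y - b) := by abel
    rw [this]
    exact AddSubgroup.add_mem _ ha' hb'
  | neg x _ hx =>
    obtain ⟨a, ha, ha'⟩ := hx
    refine ⟨-a, fun σ => by rw [smul_neg, ha], ?_⟩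
    have : -x - -a = -(x - a) := by abel
    rw [this]
    exact AddSubgroup.neg_mem _ ha'

end Coord

theorem stmt_Coord (hDL : Stmt_DL) : Stmt_Coord := by
  intro Γ K Pl J C I₀ _ _ _ _ _ _ _ _ A O hval hO dl Dsc val P0 G H
  refine ⟨⟨hO, fun σ z hz => Coord_stab G H σ z hz, ?_, fun j σ z hz => Coord_T2 G H j σ z hz,
    ?_, ?_⟩, fun x => Coord_lift G H x⟩
  · rintro ⟨c, i⟩ z hz
    obtain ⟨P, hP⟩ := G.exA c z hz
    rw [Coord_tco_eq G c i z P hP]
    exact G.val_mem c i (P i) (hP.1 i)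
  · intro z hz w hw h
    obtain ⟨c⟩ := (inferInstance : Nonempty C)
    obtain ⟨P, hP⟩ := G.exA c z hz
    obtain ⟨P', hP'⟩ := G.exA c w hw
    have hPP : P = P' := by
      funext i
      have h1 := h (c, i)
      rw [Coord_tco_eq G c i z P hP, Coord_tco_eq G c i w P' hP'] at h1
      exact G.val_inj c i _ _ (hP.1 i) (hP'.1 i) (sub_left_injective h1)
    rw [hP.2, hP'.2, hPP]
  · intro S S' hS hS' hSJ hSJ' hst hst' i
    obtain ⟨Q, hQ⟩ := G.law S S' hS hS' hSJ hSJ' i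
    have key := hDL Γ K (J × J) ((C × I₀) ⊕ (C × I₀)) A O hval hO (S ×ˢ S')
      (fun σ x hx => ⟨hst σ _ hx.1, hst' σ _ hx.2⟩)
      (Sum.elim (fun j x => tco dl Dsc val P0 j x.1) (fun j x => tco dl Dsc val P0 j x.2))
      (by
        rintro (j | j) σ x hx
        · exact Coord_T2 G H j σ x.1 (hSJ hx.1)
        · exact Coord_T2 G H j σ x.2 (hSJ' hx.2))
      (fun x => tco dl Dsc val P0 i (x.1 + x.2))
      (by
        intro σ x hx
        have h1 := Coord_T2 G H i σ (x.1 + x.2)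
          (AddSubgroup.add_mem _ (hSJ hx.1) (hSJ' hx.2))
        rw [smul_add] at h1
        exact h1)
      ⟨Q, by
        intro x hx
        have h1 := hQ x.1 hx.1 x.2 hx.2 _ _ _ (Coord_isT G x.1 (hSJ hx.1))
          (Coord_isT G x.2 (hSJ' hx.2))
          (Coord_isT G (x.1 + x.2) (AddSubgroup.add_mem _ (hSJ hx.1) (hSJ' hx.2)))
        have e : (fun j => Sum.elim (fun j (x : J × J) => tco dl Dsc val P0 j x.1)
            (fun j (x : J × J) => tco dl Dsc val P0 j x.2) j x) =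
            Sum.elim (fun j => tco dl Dsc val P0 j x.1) (fun j => tco dl Dsc val P0 j x.2) := by
          funext j
          cases j <;> rfl
        rw [e]
        exact h1⟩
    obtain ⟨P, hP⟩ := key
    refine ⟨P, fun z hz w hw => ?_⟩
    have h1 := hP (z, w) ⟨hz, hw⟩
    have e : (fun j => Sum.elim (fun j (x : J × J) => tco dl Dsc val P0 j x.1)
        (fun j (x : J × J) => tco dl Dsc val P0 j x.2) j (z, w)) =
        Sum.elim (fun j => tco dl Dsc val P0 j z) (fun j => tco dl Dsc val P0 j w) := by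
      funext j
      cases j <;> rfl
    rw [e] at h1
    exact h1

end Fermat.Agent.FF19.Top

end
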