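import Fermat.Agent.FF19.Ord.DLTop

/-!
# FF19 / Top : TOP-DL, the descent lemma

`stmt_DL : Stmt_DL` is `Ord.top_DL` (helper23, `FF19/Ord/DLTop.lean`); this file only gives it the
name announced in the task list.
-/

set_option autoImplicit false

namespace Fermat.Agent.FF19.Top

/-- (TOP-DL) the descent lemma. -/
theorem stmt_DL : Stmt_DL := Ord.top_DL

end Fermat.Agent.FF19.Top
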