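/-
TEAM FF19 -> S19, block TOP: the contract `Stmt_DescT` of block D, from `D.all_Desc` (helper87).
-/
import Fermat.Agent.FF19.Top.Interface
import Fermat.Agent.FF19.D.All

set_option autoImplicit false

noncomputable section

namespace Fermat.Agent.FF19.Top

open Fermat.Agent.RED

theorem DescT_OI_eq (A : ValuationSubring Qb) : OI A = D.OI A := by
  ext a
  constructor
  · rintro ⟨h1, h2⟩
    exact ⟨h1, fun σ hσ => h2 ⟨σ, hσ⟩⟩
  · rintro ⟨h1, h2⟩
    exact ⟨h1, fun σ => h2 σ.1 σ.2⟩

/-- change of the action of `Γ` on `G` in `IsLocOrd`. -/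
theorem DescT_congr {Γ K : Type} [Group Γ] [Field K] [MulSemiringAction Γ K] (O : Subring K)
    (G : Type) [AddCommGroup G] (m₁ m₂ : MulAction Γ G)
    (h : ∀ (σ : Γ) (x : G), m₁.toSMul.smul σ x = m₂.toSMul.smul σ x)
    (R : Subalgebra O (G → K)) (hR : @Ord.IsLocOrd Γ K _ _ _ O G _ m₁ R) :
    @Ord.IsLocOrd Γ K _ _ _ O G _ m₂ R := by
  have : m₁ = m₂ := by
    ext σ x
    exact h σ x
  subst this
  exact hR

theorem stmt_DescT : Stmt_DescT := by
  intro l hl A hA G _ _ act h1 hmul hadd hopen mI hI hR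
  have hzero : ∀ σ, act σ 0 = 0 := by
    intro σ
    have := hadd σ 0 0
    rw [add_zero] at this
    exact left_eq_add.1 this
  let mG : DistribMulAction GQ G :=
    { smul := act
      one_smul := h1
      mul_smul := hmul
      smul_zero := hzero
      smul_add := hadd }
  rw [DescT_OI_eq] at hR
  obtain ⟨R, hR⟩ := hR
  obtain ⟨L, hL, hLG⟩ := hopen
  have hR' := DescT_congr (D.OI A) G mI
    (Subgroup.instMulAction (S := A.inertiaSubgroupIn ℚ) (α := G)) (fun σ x => hI σ x) R hR
  exact D.all_Desc l hl A hA G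
    ⟨L, hL, fun s hs g => hLG s ((IntermediateField.mem_fixingSubgroup_iff L s).2 hs) g⟩ R hR'

end Fermat.Agent.FF19.Top

end
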