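import Fermat.Agent.ES.Mid.Finite

/-!
# FF19 / Top : OPEN KERNEL (helper89)

Every torsion point of `J₀(N)` is fixed by an open subgroup of `Gal(Q̄/ℚ)`.

`z = [D]`, `m • D = div u`, `u` is fixed by an open subgroup (`ES.Mid.LM.fixedOpen`), and the group
of divisors is torsion free, so `σ D = D` as soon as `σ u = u`.
-/

set_option autoImplicit false

namespace Fermat.Agent.FF19.Top

open AlgebraicCurve ModularCurve
open Fermat.Agent.S24 (Qbar FF)
open Fermat.Agent.ES.Mid (GQ gal)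

section Abstract

variable {K F : Type*} [Field K] [Field F] [Algebra K F]

/-- a semilinear automorphism fixing `u` fixes every divisor `D` with `m • D = div u`. -/
theorem OpenKer_divisor_fixed (g : SemilinearAut K F) (m : ℤ) (hm : m ≠ 0) (D : Divisor K F)
    (u : F) (hu : ∀ v : Place K F, (m • D) v = v.ord u) (hg : g • u = u) : g • D = D := by
  refine Finsupp.ext fun w => ?_
  rw [SemilinearAut.divisor_smul_apply]
  have h1 := hu (g⁻¹ • w)
  have h2 := hu w
  have h3 := SemilinearAut.ord_smul g (g⁻¹ • w) u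
  rw [smul_inv_smul, hg] at h3
  rw [Finsupp.smul_apply, smul_eq_mul] at h1 h2
  have h4 : m * D (g⁻¹ • w) = m * D w := by rw [h1, h2, h3]
  exact mul_left_cancel₀ hm h4

/-- the class version. -/
theorem OpenKer_abs (m : ℤ) (hm : m ≠ 0) (z : Pic0 K F) (hz : m • z = 0) :
    ∃ u : F, ∀ g : SemilinearAut K F, g • u = u → g • z = z := by
  obtain ⟨D, rfl⟩ := Pic0.mk_surjective z
  have h0 : Pic0.mk (m • D) = 0 := hz
  have h1 : m • D ∈ (Divisor.principal (K := K) (F := F)).addSubgroupOf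
      (Divisor.degZero (K := K) (F := F)) := (QuotientAddGroup.eq_zero_iff _).mp h0
  rw [AddSubgroup.mem_addSubgroupOf] at h1
  obtain ⟨u, -, hu⟩ := h1
  refine ⟨u, fun g hg => ?_⟩
  rw [SemilinearAut.pic0_smul_mk]
  refine congrArg Pic0.mk (Subtype.ext ?_)
  rw [SemilinearAut.coe_degZeroSMulHom]
  exact OpenKer_divisor_fixed g m hm (D : Divisor K F) u hu hg

end Abstract

/-- **OPEN KERNEL, pointwise.** -/
theorem openKer_point (N : ℕ) (m : ℤ) (hm : m ≠ 0) (z : JZero N) (hz : m • z = 0) :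
    ∃ L : IntermediateField ℚ Qbar, FiniteDimensional ℚ L ∧
      ∀ σ : GQ, (∀ x ∈ L, σ x = x) → σ • z = z := by
  obtain ⟨u, hu⟩ := OpenKer_abs (K := Qbar) (F := FF N) m hm z hz
  obtain ⟨L, hL, h⟩ := Fermat.Agent.ES.Mid.LM.fixedOpen N u
  refine ⟨L, hL, fun σ hσ => ?_⟩
  rw [galois_smul_pic0_def]
  exact hu _ (h σ hσ)

/-- **OPEN KERNEL, for a finite set of torsion points**: one number field for all of them. -/
theorem openKer_finite (N : ℕ) (S : Set (JZero N)) (hS : S.Finite)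
    (htor : ∀ z ∈ S, ∃ m : ℤ, m ≠ 0 ∧ m • z = 0) :
    ∃ L : IntermediateField ℚ Qbar, FiniteDimensional ℚ L ∧
      ∀ σ : GQ, (∀ x ∈ L, σ x = x) → ∀ z ∈ S, σ • z = z := by
  induction S, hS using Set.Finite.induction_on with
  | empty => exact ⟨⊥, inferInstance, fun _ _ z hz => absurd hz (Set.notMem_empty z)⟩
  | @insert a S _ _ ih =>
    obtain ⟨L₁, h₁, hL₁⟩ := ih fun z hz => htor z (Set.mem_insert_of_mem a hz)
    obtain ⟨m, hm, hma⟩ := htor a (Set.mem_insert a S)
    obtain ⟨L₂, h₂, hL₂⟩ := openKer_point N m hm a hma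
    refine ⟨L₁ ⊔ L₂, IntermediateField.finiteDimensional_sup L₁ L₂, fun σ hσ z hz => ?_⟩
    rcases Set.mem_insert_iff.mp hz with rfl | hz
    · exact hL₂ σ fun x hx => hσ x ((le_sup_right : L₂ ≤ L₁ ⊔ L₂) hx)
    · exact hL₁ σ (fun x hx => hσ x ((le_sup_left : L₁ ≤ L₁ ⊔ L₂) hx)) z hz

end Fermat.Agent.FF19.Top
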