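import Fermat.Agent.FF19.Top.Interface
import Fermat.Agent.FF19.Top.OpenKer
import Fermat.Agent.S27.Assembly2
import Fermat.Agent.S27.L4b
import Fermat.Agent.S24.DegreeBound
import Fermat.Agent.S54.Frob95

/-!
# FF19 / Top : `Stmt_Fin`, `Stmt_Open`, `Stmt_ExA` (helper89)
-/

set_option autoImplicit false

namespace Fermat.Agent.FF19.Top

open AlgebraicCurve ModularCurve
open Fermat.Agent.RED (Qb GQ FF)

/-- the function field of `X₀(M)` is a function field in the sense of S27. -/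
theorem FinOpen_isFF (M : ℕ) [NeZero M] : Fermat.Agent.S27.IsFF Qb (FF M) :=
  ⟨Fermat.Agent.S24.jF M, Fermat.Agent.S24.DegBd.transcendental_jF M,
    (Fermat.Agent.S24.finrank_FF_le M).1⟩

/-- the cardinality of the `n`-torsion of `J₀(M)`. -/
theorem FinOpen_card (M : ℕ) [NeZero M] (n : ℕ) (hn : 0 < n) :
    Nat.card (Pic0.torsion Qb (FF M) n) = n ^ (2 * genusFF Qb (FF M)) :=
  Fermat.Agent.S27.main_of_l4b
    (Fermat.Agent.S27.l4b (Fermat.Agent.S27.l4a Fermat.Agent.S27.r0))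
    (Fermat.Agent.S27.l4b (Fermat.Agent.S27.l4a Fermat.Agent.S27.r0)) Qb (FF M) (FinOpen_isFF M) n hn

/-- **(FIN)**. -/
theorem stmt_Fin : Stmt_Fin := by
  intro M l k _ hl
  have hn : 0 < l ^ k := pow_pos hl.pos k
  have h1 : Finite (Pic0.torsion Qb (FF M) (l ^ k)) :=
    Nat.finite_of_card_ne_zero (by rw [FinOpen_card M _ hn]; exact pow_ne_zero _ hn.ne')
  refine Finite.of_injective
    (fun x : Tor M l k => (⟨(x : JZero M), by
      rw [Pic0.mem_torsion]
      have h := x.2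
      rw [Submodule.mem_torsionBy_iff] at h
      rw [Nat.cast_pow]
      exact h⟩ : Pic0.torsion Qb (FF M) (l ^ k))) ?_
  intro x y hxy
  exact Subtype.ext (congrArg (fun t : Pic0.torsion Qb (FF M) (l ^ k) => (t : JZero M)) hxy)

/-- **(OPEN)**. -/
theorem stmt_Open : Stmt_Open := by
  intro M l k _ hl
  have hfin : Finite (Tor M l k) := stmt_Fin M l k hl
  have hm : ((l : ℤ) ^ k) ≠ 0 := pow_ne_zero _ (by exact_mod_cast hl.ne_zero)
  obtain ⟨L, hL, h⟩ := openKer_finite M (Set.range fun x : Tor M l k => (x : JZero M))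
    (Set.finite_range _) (by
      rintro _ ⟨x, rfl⟩
      exact ⟨(l : ℤ) ^ k, hm, (Submodule.mem_torsionBy_iff _ _).mp x.2⟩)
  refine ⟨L, hL, fun σ hσ x => Subtype.ext ?_⟩
  exact h σ (fun a ha => hσ ⟨a, ha⟩) _ ⟨x, rfl⟩

/-- **(ExA)**. -/
theorem stmt_ExA : Stmt_ExA := fun l hl => Fermat.Agent.S54.Frob95.exists_valuationSubring l hl

end Fermat.Agent.FF19.Top
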