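/-
TEAM FF19 -> S19, block TOP (helper84).  The top assembly (helper40).
-/
import Fermat.Agent.FF19.Top.Interface

set_option autoImplicit false

noncomputable section

namespace Fermat.Agent.FF19.Top

open Fermat.Agent.RED AlgebraicCurve ModularCurve

theorem Main_act_one (M l k : ℕ) (x : Tor M l k) : actT M l k 1 x = x :=
  Subtype.ext (one_smul GQ (x : JZero M))

theorem Main_act_mul (M l k : ℕ) (σ τ : GQ) (x : Tor M l k) :
    actT M l k (σ * τ) x = actT M l k σ (actT M l k τ x) :=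
  Subtype.ext (mul_smul σ τ (x : JZero M))

theorem Main_act_add (M l k : ℕ) (σ : GQ) (x y : Tor M l k) :
    actT M l k σ (x + y) = actT M l k σ x + actT M l k σ y :=
  Subtype.ext (smul_add σ (x : JZero M) (y : JZero M))

theorem Main_act_surj (M l k : ℕ) (σ : GQ) : Function.Surjective (actT M l k σ) := fun x =>
  ⟨actT M l k σ⁻¹ x, by rw [← Main_act_mul, mul_inv_cancel, Main_act_one]⟩

/-- the auxiliary prime. -/
theorem Main_aux_prime (l : ℕ) : ∃ r : ℕ, r.Prime ∧ l ≠ r ∧ (4 ∣ r ^ 2 ∨ 9 ∣ r ^ 2) := by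
  by_cases h2 : l = 2
  · exact ⟨3, Nat.prime_three, by omega, Or.inr (by norm_num)⟩
  · exact ⟨2, Nat.prime_two, h2, Or.inl (by norm_num)⟩

/-- the order at the auxiliary level. -/
theorem Main_order (hDesc : Stmt_DescT) (hCoord : Stmt_Coord) (hFin : Stmt_Fin) (hOpen : Stmt_Open)
    (hExA : Stmt_ExA) (M l k : ℕ) [NeZero M] (hl : l.Prime) (hGeo : Stmt_Geo M l) :
    ∃ H : Subalgebra (Hopf.Rl l) (Tor M l k → Qb), Hopf.IsOrder l (Tor M l k) (actT M l k) H := by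
  obtain ⟨A, hA⟩ := hExA l hl
  obtain ⟨g, Dsc, val, P0, hG, hGal⟩ := hGeo A hA
  let _ := plAct M A
  obtain ⟨hC, hlift⟩ := hCoord (Ine A) Qb (Pl M) (JZero M) Bool (Fin g) A.toSubring (OI A)
    A.mem_or_inv_mem (mem_OI A) (dlM M) Dsc val P0 hG hGal
  have _ := hFin M l k hl
  let _ := torAct M l k A
  have hR := Ord.main A.toSubring (OI A) (J1 (dlM M) Dsc) (tco (dlM M) Dsc val P0) hC (Tor M l k)
    (Submodule.torsionBy ℤ (JZero M) ((l : ℤ) ^ k)).subtype.toAddMonoidHom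
    Subtype.val_injective (fun _ _ => rfl) (fun x => hlift _)
  exact hDesc l hl A hA (Tor M l k) (actT M l k) (Main_act_one M l k) (Main_act_mul M l k)
    (Main_act_add M l k) (hOpen M l k hl) (fun _ _ => rfl) hR

/-- **(TOP)** -/
theorem stmt_Top : Stmt_Top := by
  intro hCrit hSub hDesc _hDL hCoord hFin hOpen hQ hExA hGeo N _ ℓ hℓ hℓN k
  have hl : ℓ.Prime := hℓ.out
  obtain ⟨r, hr, hlr, h49⟩ := Main_aux_prime ℓ
  have _ : NeZero (N * r ^ 2) := ⟨mul_ne_zero (NeZero.ne N) (pow_ne_zero 2 hr.ne_zero)⟩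
  have hlM : ¬ ℓ ∣ N * r ^ 2 := by
    intro h
    rcases (Nat.Prime.dvd_mul hl).1 h with h | h
    · exact hℓN h
    · exact hlr ((Nat.prime_dvd_prime_iff_eq hl hr).1 (hl.dvd_of_dvd_pow h))
  have h49M : 4 ∣ N * r ^ 2 ∨ 9 ∣ N * r ^ 2 :=
    h49.imp (fun h => h.mul_left N) (fun h => h.mul_left N)
  obtain ⟨H, hH⟩ := Main_order hDesc hCoord hFin hOpen hExA (N * r ^ 2) ℓ k hl
    (hGeo (N * r ^ 2) ℓ hl hlM h49M)
  obtain ⟨j, hj, hjσ⟩ := hQ N r ℓ k hr hl hlr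
  have hN := hSub ℓ (Tor (N * r ^ 2) ℓ k) (Tor N ℓ k) (actT (N * r ^ 2) ℓ k) (actT N ℓ k) H j hj
    (Main_act_surj N ℓ k) hjσ hH
  have _ := hFin N ℓ k hl
  obtain ⟨H0, i1, i2, h1, h2, h3, e, he1, he2⟩ := hCrit ℓ hl (Tor N ℓ k) (actT N ℓ k) _ hN
  exact ⟨H0, i1, i2, h1, h2, h3, e, he1, fun σ f g hfg => congrArg Subtype.val (he2 σ f g hfg)⟩

end Fermat.Agent.FF19.Top

end
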