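/-
TEAM FF19 -> S19, block TOP (helper84).  The final assembly `Stmt_Final` (helper97).
-/
import Fermat.Agent.FF19.Top.Pkg
import Fermat.Agent.FF19.Top.Main
import Fermat.Agent.FF19.A.All
import Fermat.Agent.RED.EvBasic

set_option autoImplicit false

noncomputable section

namespace Fermat.Agent.FF19.Top

open Fermat.Agent.RED AlgebraicCurve ModularCurve

/-- the Galois action on the torsion, as a `DistribMulAction`. -/
@[reducible] def Final_torDMA (M l k : ℕ) : DistribMulAction GQ (Tor M l k) where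
  smul σ x := actT M l k σ x
  one_smul := Main_act_one M l k
  mul_smul := Main_act_mul M l k
  smul_zero σ := Subtype.ext (smul_zero σ)
  smul_add := Main_act_add M l k

/-- equivariance of the coordinates (one chart, abstract form). -/
theorem Final_T2 (hGal : A.Stmt_Gal) {K F k κ : Type} [Field K] [Field F] [Algebra K F] [Field k]
    [Field κ] [Algebra k κ] (D : INJ.RedData K F k κ) (sp : Place K F → Place k κ) (g : ℕ)
    (x : Fin g → Place k κ) (P0 : Fin g → Place K F) (t : F) (T : Fin g → Pic0 K F → K)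
    (hspd : A.SpData D sp) (hcf : A.CurveFacts K F g) (hbase : A.Base sp x P0)
    (hco : Law.IsCo sp x P0 t T) (hreg : ∀ i (P : Place K F), sp P = x i → ∃ c : K, Ev P t c)
    (s : SemilinearAut K F) (hs : ∀ P : Place K F, sp (s • P) = sp P) (hP0 : ∀ i, s • P0 i = P0 i)
    (ht : s • t = t) (z : Pic0 K F) (hz : A.InJ1 sp z) (i : Fin g) :
    T i (s • z) = SemilinearAut.baseAut s (T i z) := by
  obtain ⟨P, hRep⟩ := A.all_Ex K F k κ D sp g x P0 hspd hcf hbase z hz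
  have h1 : ∀ i, ∃ c : K, Ev (P i) t c := fun i => hreg i (P i) (hRep.1 i)
  have h2 : ∀ i, ∃ c : K, Ev (P0 i) t c := fun i => hreg i (P0 i) (hbase.sp0 i)
  choose c hc using h1
  choose c0 hc0 using h2
  obtain ⟨_, hG2, hG3⟩ := hGal K F k κ sp g x P0 s hs hP0
  have e1 : T i z = c i - c0 i := hco z P c c0 hRep hc hc0 i
  have hc' : A.IsVal t (fun i => s • P i) (fun i => SemilinearAut.baseAut s (c i)) := by
    intro i
    have := hG3 (P i) t (c i) (hc i)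
    rwa [ht] at this
  have hc0' : A.IsVal t P0 (fun i => SemilinearAut.baseAut s (c0 i)) := by
    intro i
    have := hG3 (P0 i) t (c0 i) (hc0 i)
    rwa [ht, hP0 i] at this
  have e2 := hco (s • z) (fun i => s • P i) _ _ (hG2 z P hRep) hc' hc0' i
  rw [e2, e1, map_sub]

/-- the order at a level where the package exists. -/
theorem Final_order (hDesc : Stmt_DescT) (hFin : Stmt_Fin) (hOpen : Stmt_Open) (hExA : Stmt_ExA)
    (hGC : Law.Stmt_GeoCoord) (hCoEx : Law.Stmt_CoEx) (hArch : Law.Stmt_ArchQ) (hGal : A.Stmt_Gal)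
    (M l k : ℕ) [NeZero M] (hl : l.Prime) (hPkg : Stmt_Pkg M l) :
    ∃ H : Subalgebra (Hopf.Rl l) (Tor M l k → Qb), Hopf.IsOrder l (Tor M l k) (actT M l k) H := by
  obtain ⟨A, hA⟩ := hExA l hl
  obtain ⟨kk, κ, _, _, _, D, sp, g, s, t, Einf, w, w', cb, cb', P0, Q0, hDA, hGeo, hsp, ht, hfix,
    hlift⟩ := hPkg A hA
  subst hDA
  obtain ⟨T, hT⟩ := hCoEx Qb (FF M) kk κ D sp g (fun i => w i 0) P0 t hGeo.spd hGeo.cf hGeo.base
  obtain ⟨T', hT'⟩ := hCoEx Qb (FF M) kk κ D sp g (fun i => w' i 0) Q0 t hGeo.spd hGeo.cf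
    hGeo.base'
  have _ : Algebra.IsAlgebraic ℚ Qb := AlgebraicClosure.isAlgebraic ℚ
  have hAr : Law.Arch D.A := hArch Qb D.A l hl hA
  have hc := hGC Qb (FF M) kk κ D sp g s t Einf w w' cb cb' P0 Q0 hAr hGeo T T' hT hT'
  have _ := hFin M l k hl
  let _ := Final_torDMA M l k
  have hO : ∀ a : Qb, a ∈ OI D.A ↔ a ∈ D.A ∧ ∀ σ ∈ Ine D.A, σ • a = a := fun a =>
    (mem_OI D.A a).trans ⟨fun h => ⟨h.1, fun σ hσ => h.2 ⟨σ, hσ⟩⟩, fun h => ⟨h.1, fun σ => h.2 σ.1 σ.2⟩⟩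
  have stab : ∀ σ ∈ Ine D.A, ∀ z ∈ Law.J1 sp, σ • z ∈ Law.J1 sp := fun σ hσ z hz =>
    Law.mem_J1.2 ((hGal Qb (FF M) kk κ sp g (fun i => w i 0) P0 (gal M σ) (hsp σ hσ)
      (fun i => (hfix σ hσ i).1)).1 z (Law.mem_J1.1 hz))
  have T2 : ∀ a, ∀ σ ∈ Ine D.A, ∀ z ∈ Law.J1 sp,
      (Sum.elim T T' : Fin g ⊕ Fin g → JZero M → Qb) a (σ • z) = σ • Sum.elim T T' a z := by
    rintro (i | i) σ hσ z hz
    · exact Final_T2 hGal D sp g (fun i => w i 0) P0 t T hGeo.spd hGeo.cf hGeo.base hT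
        (fun i P hP => by
          obtain ⟨c, _, hc, _⟩ := hGeo.fib.reg i 0 P hP
          exact ⟨c, hc⟩)
        (gal M σ) (hsp σ hσ) (fun i => (hfix σ hσ i).1) (ht σ hσ) z (Law.mem_J1.1 hz) i
    · exact Final_T2 hGal D sp g (fun i => w' i 0) Q0 t T' hGeo.spd hGeo.cf hGeo.base' hT'
        (fun i P hP => by
          obtain ⟨c, _, hc, _⟩ := hGeo.fib'.reg i 0 P hP
          exact ⟨c, hc⟩)
        (gal M σ) (hsp σ hσ) (fun i => (hfix σ hσ i).2) (ht σ hσ) z (Law.mem_J1.1 hz) i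
  have hR := Ord.mainO (Γ := GQ) (Ine D.A) D.A (OI D.A) hO (Law.J1 sp) (Sum.elim T T') hc stab T2
    (Tor M l k) (Submodule.torsionBy ℤ (JZero M) ((l : ℤ) ^ k)).subtype.toAddMonoidHom
    Subtype.val_injective (fun _ _ _ => rfl) (fun x => hlift _)
  exact hDesc l hl D.A hA (Tor M l k) (actT M l k) (Main_act_one M l k) (Main_act_mul M l k)
    (Main_act_add M l k) (hOpen M l k hl) (fun _ _ => rfl) hR

/-- the auxiliary prime. -/
theorem Final_aux_prime (N l : ℕ) (h2 : ¬ 2 ∣ N) (h3 : ¬ 3 ∣ N) :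
    ∃ r : ℕ, r.Prime ∧ ¬ r ∣ N ∧ l ≠ r ∧ (2 ∣ r ∨ 3 ∣ r) := by
  by_cases h : l = 2
  · exact ⟨3, Nat.prime_three, h3, by omega, Or.inr (dvd_refl 3)⟩
  · exact ⟨2, Nat.prime_two, h2, h, Or.inl (dvd_refl 2)⟩

/-- **(FINAL)** -/
theorem stmt_Final : Stmt_Final := by
  intro hCrit hSub hDesc hFin hOpen hExA hQ2 hGC hCoEx hArch hGal hPkg N _ ℓ hℓ hℓN k
  have hl : ℓ.Prime := hℓ.out
  have _ := hFin N ℓ k hl
  by_cases h23 : 2 ∣ N ∨ 3 ∣ N
  · obtain ⟨H, hH⟩ := Final_order hDesc hFin hOpen hExA hGC hCoEx hArch hGal N ℓ k hl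
      (hPkg N ℓ (NeZero.ne N) hl hℓN h23)
    obtain ⟨H0, i1, i2, h1, h2, h3, e, he1, he2⟩ := hCrit ℓ hl (Tor N ℓ k) (actT N ℓ k) _ hH
    exact ⟨H0, i1, i2, h1, h2, h3, e, he1, fun σ f g hfg => congrArg Subtype.val (he2 σ f g hfg)⟩
  · rw [not_or] at h23
    obtain ⟨r, hr, hrN, hlr, h23r⟩ := Final_aux_prime N ℓ h23.1 h23.2
    have hM0 : N * r ≠ 0 := mul_ne_zero (NeZero.ne N) hr.ne_zero
    have _ : NeZero (N * r) := ⟨hM0⟩
    have hlM : ¬ ℓ ∣ N * r := by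
      intro h
      rcases (Nat.Prime.dvd_mul hl).1 h with h | h
      · exact hℓN h
      · exact hlr ((Nat.prime_dvd_prime_iff_eq hl hr).1 h)
    have h23M : 2 ∣ N * r ∨ 3 ∣ N * r := h23r.imp (fun h => h.mul_left N) (fun h => h.mul_left N)
    obtain ⟨H, hH⟩ := Final_order hDesc hFin hOpen hExA hGC hCoEx hArch hGal (N * r) ℓ k hl
      (hPkg (N * r) ℓ hM0 hl hlM h23M)
    obtain ⟨j, hj, hjσ⟩ := hQ2 N r ℓ k hr hrN hl hlr
    have hN := hSub ℓ (Tor (N * r) ℓ k) (Tor N ℓ k) (actT (N * r) ℓ k) (actT N ℓ k) H j hj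
      (Main_act_surj N ℓ k) hjσ hH
    obtain ⟨H0, i1, i2, h1, h2, h3, e, he1, he2⟩ := hCrit ℓ hl (Tor N ℓ k) (actT N ℓ k) _ hN
    exact ⟨H0, i1, i2, h1, h2, h3, e, he1, fun σ f g hfg => congrArg Subtype.val (he2 σ f g hfg)⟩

end Fermat.Agent.FF19.Top

end
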